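import Mathlib
import Fermat.Agent.LT.H556.A0
import Fermat.Agent.LT.T1.H793.AdeleProj

/-!
# Row LT, tower T2, leaf T2.09 (helper566): elements of `GL₂(𝔸_K)` supported at one place

OFF-MAIN.  Imports: Mathlib, `LT/H556/A0.lean`, `LT/T1/H793/AdeleProj.lean` (helper793,
byte-identical copy).

* `trivAtInf_iff566`, `trivAtFin_iff566`: triviality at a place = the component is `1`.
* `IsLocalAtFin.mul566`, `IsLocalAtFin.inv566`.
* `eq_of_isLocalAtInf566`: an element supported at the infinite place `w` is determined by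
  `infComp w`.
* `integers_subset_idealClosure566`: `𝒪_v ⊆ idealClosure 𝔫 v` for `v ∤ 𝔫`.
* `inLevelGroup_of_local566`: an element supported at `v ∤ 𝔫`, integral with integral inverse,
  lies in the level group `U(𝔫)`.
-/

set_option autoImplicit false
set_option linter.unusedSectionVars false
set_option linter.style.haveILetI false

open IsDedekindDomain NumberField
open Fermat.Agent.LT.H556.A0 Fermat.Agent.LT.T1.H793

noncomputable section

namespace Fermat.Agent.LT.T2.H566

variable {K : Type} [Field K] [NumberField K]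

theorem trivAtInf_iff566 (w : InfinitePlace K) (g : G K) :
    TrivAtInf w g ↔ glInf793 w g = 1 := by
  constructor
  · intro h
    apply Units.ext
    rw [glInf793_coe]
    refine Matrix.ext (fun i j => ?_)
    simpa [Matrix.map_apply] using h i j
  · intro h i j
    have := congrArg (fun x : GL (Fin 2) w.Completion =>
      (x : Matrix (Fin 2) (Fin 2) w.Completion) i j) h
    simpa [glInf793_coe, Matrix.map_apply] using this

theorem trivAtFin_iff566 (v : HeightOneSpectrum (𝓞 K)) (g : G K) :
    TrivAtFin v g ↔ glFin793 v g = 1 := by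
  unfold TrivAtFin
  rw [finComp_eq793]
  constructor
  · intro h
    exact Units.ext h
  · intro h
    rw [h]
    rfl

theorem finComp_mul566 (v : HeightOneSpectrum (𝓞 K)) (g h : G K) :
    finComp v (g * h) = finComp v g * finComp v h := by
  rw [finComp_eq793, finComp_eq793, finComp_eq793, map_mul]
  rfl

theorem finComp_one566 (v : HeightOneSpectrum (𝓞 K)) : finComp v (1 : G K) = 1 := by
  rw [finComp_eq793, map_one]
  rfl

theorem finComp_inv_mul566 (v : HeightOneSpectrum (𝓞 K)) (g : G K) :
    finComp v g⁻¹ * finComp v g = 1 := by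
  rw [← finComp_mul566, inv_mul_cancel, finComp_one566]

theorem finComp_mul_inv566 (v : HeightOneSpectrum (𝓞 K)) (g : G K) :
    finComp v g * finComp v g⁻¹ = 1 := by
  rw [← finComp_mul566, mul_inv_cancel, finComp_one566]

theorem IsLocalAtFin.mul566 {v : HeightOneSpectrum (𝓞 K)} {g h : G K}
    (hg : IsLocalAtFin v g) (hh : IsLocalAtFin v h) : IsLocalAtFin v (g * h) := by
  refine ⟨fun w => ?_, fun v' hv' => ?_⟩
  · rw [trivAtInf_iff566, map_mul, (trivAtInf_iff566 w g).1 (hg.1 w),
      (trivAtInf_iff566 w h).1 (hh.1 w), one_mul]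
  · rw [trivAtFin_iff566, map_mul, (trivAtFin_iff566 v' g).1 (hg.2 v' hv'),
      (trivAtFin_iff566 v' h).1 (hh.2 v' hv'), one_mul]

theorem IsLocalAtFin.inv566 {v : HeightOneSpectrum (𝓞 K)} {g : G K}
    (hg : IsLocalAtFin v g) : IsLocalAtFin v g⁻¹ := by
  refine ⟨fun w => ?_, fun v' hv' => ?_⟩
  · rw [trivAtInf_iff566, map_inv, (trivAtInf_iff566 w g).1 (hg.1 w), inv_one]
  · rw [trivAtFin_iff566, map_inv, (trivAtFin_iff566 v' g).1 (hg.2 v' hv'), inv_one]

/-- An element supported at the infinite place `w` is determined by its matrix at `w`. -/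
theorem eq_of_isLocalAtInf566 {w : InfinitePlace K} {g h : G K}
    (hg : IsLocalAtInf w g) (hh : IsLocalAtInf w h) (e : infComp w g = infComp w h) :
    g = h := by
  refine gl_ext793 (fun w' => ?_) (fun v => ?_)
  · by_cases hw : w' = w
    · subst hw
      apply Units.ext
      rw [infComp_eq793, infComp_eq793] at e
      refine Matrix.ext (fun i j => ?_)
      have := congrFun (congrFun e i) j
      simp only [Matrix.map_apply] at this
      exact (InfinitePlace.Completion.extensionEmbedding w').injective this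
    · rw [(trivAtInf_iff566 w' g).1 (hg.1 w' hw), (trivAtInf_iff566 w' h).1 (hh.1 w' hw)]
  · rw [(trivAtFin_iff566 v g).1 (hg.2 v), (trivAtFin_iff566 v h).1 (hh.2 v)]

/-! ## The closure of the level ideal at a place prime to the level -/

theorem zero_mem_idealClosure566 (𝔫 : Ideal (𝓞 K)) (v : HeightOneSpectrum (𝓞 K)) :
    (0 : v.adicCompletion K) ∈ idealClosure 𝔫 v := by
  apply subset_closure
  exact ⟨0, 𝔫.zero_mem, by simp⟩

/-- The valuation of the completion on the image of `k : K` under `algebraMap`. -/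
theorem valued_algebraMap566 (v : HeightOneSpectrum (𝓞 K)) (k : K) :
    Valued.v (algebraMap K (v.adicCompletion K) k) = v.valuation K k :=
  HeightOneSpectrum.valuedAdicCompletion_eq_valuation' v k

/-- `𝒪_v ⊆ idealClosure 𝔫 v` for `v ∤ 𝔫`. -/
theorem integers_subset_idealClosure566 (𝔫 : Ideal (𝓞 K)) (v : HeightOneSpectrum (𝓞 K))
    (hv : ¬ v.asIdeal ∣ 𝔫) {x : v.adicCompletion K} (hx : x ∈ v.adicCompletionIntegers K) :
    x ∈ idealClosure 𝔫 v := by
  -- an element of the level ideal which is a unit at `v`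
  have hle : ¬ 𝔫 ≤ v.asIdeal := fun h => hv (Ideal.dvd_iff_le.2 h)
  obtain ⟨c, hc𝔫, hcv⟩ := Set.not_subset.1 hle
  have hcval : v.valuation K (algebraMap (𝓞 K) K c) = 1 :=
    (HeightOneSpectrum.valuation_eq_one_iff_notMem (K := K) v).2 hcv
  have hc0 : algebraMap (𝓞 K) K c ≠ 0 := by
    intro h0
    rw [h0, map_zero] at hcval
    exact zero_ne_one hcval
  rw [HeightOneSpectrum.mem_adicCompletionIntegers] at hx
  unfold idealClosure
  rw [mem_closure_iff_nhds]
  intro t ht
  obtain ⟨γ, hγ⟩ := Valued.mem_nhds.1 ht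
  -- the radius in `ℤᵐ⁰`
  set γ' : WithZero (Multiplicative ℤ) :=
    MonoidWithZeroHom.ValueGroup₀.embedding γ.1 with hγ'
  have hγ'0 : γ' ≠ 0 := by
    intro h0
    have hz : MonoidWithZeroHom.ValueGroup₀.embedding
        (0 : MonoidWithZeroHom.ValueGroup₀ (MonoidWithZeroHom.ofClass
          (Valued.v : Valuation (v.adicCompletion K) (WithZero (Multiplicative ℤ))))) = 0 :=
      map_zero _
    exact γ.ne_zero (MonoidWithZeroHom.ValueGroup₀.embedding_strictMono.injective
      (h0.trans hz.symm))
  -- `k : K` close to `x`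
  have hN1 : {y : v.adicCompletion K | Valued.v.restrict (y - x) < γ.1} ∈ nhds x :=
    Valued.mem_nhds.2 ⟨γ, subset_rfl⟩
  have hN2 : {y : v.adicCompletion K | Valued.v.restrict (y - x) < (1 : (_)ˣ).1} ∈ nhds x :=
    Valued.mem_nhds.2 ⟨1, subset_rfl⟩
  obtain ⟨k, hk⟩ := (HeightOneSpectrum.denseRange_algebraMap (K := K) v).mem_nhds
    (Filter.inter_mem hN1 hN2)
  have hkγ : Valued.v (algebraMap K (v.adicCompletion K) k - x) < γ' :=
    (Valuation.restrict_lt_iff_lt_embedding _).1 hk.1
  have hk2 : Valued.v (algebraMap K (v.adicCompletion K) k - x) < 1 := by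
    have := hk.2
    simp only [Set.mem_ofPred_eq, Units.val_one] at this
    exact (Valuation.restrict_lt_one_iff _).1 this
  have hk1 : v.valuation K k ≤ 1 := by
    rw [← valued_algebraMap566]
    have : algebraMap K (v.adicCompletion K) k = (algebraMap K (v.adicCompletion K) k - x) + x := by
      ring
    rw [this]
    exact (Valuation.map_add_le_max' _ _ _).trans (max_le hk2.le hx)
  -- `k / c` is integral at `v`: approximate it by `a : 𝓞 K`
  have hkc : v.valuation K (k / algebraMap (𝓞 K) K c) ≤ 1 := by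
    rw [map_div₀, hcval, div_one]
    exact hk1
  obtain ⟨a, ha⟩ := HeightOneSpectrum.exists_valuation_sub_lt_of_integer v hkc (Units.mk0 γ' hγ'0)
  rw [Units.val_mk0] at ha
  refine ⟨algebraMap K (v.adicCompletion K) (algebraMap (𝓞 K) K (c * a)), hγ ?_,
    ⟨c * a, 𝔫.mul_mem_right a hc𝔫, rfl⟩⟩
  simp only [Set.mem_ofPred_eq]
  rw [Valuation.restrict_lt_iff_lt_embedding]
  have e : algebraMap K (v.adicCompletion K) (algebraMap (𝓞 K) K (c * a)) - x
      = algebraMap K (v.adicCompletion K)
          (algebraMap (𝓞 K) K c * (algebraMap (𝓞 K) K a - k / algebraMap (𝓞 K) K c))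
        + (algebraMap K (v.adicCompletion K) k - x) := by
    have : algebraMap (𝓞 K) K c * (algebraMap (𝓞 K) K a - k / algebraMap (𝓞 K) K c)
        = algebraMap (𝓞 K) K (c * a) - k := by
      rw [map_mul]
      field_simp
    rw [this, map_sub]
    ring
  rw [e]
  refine lt_of_le_of_lt (Valuation.map_add_le_max' _ _ _) (max_lt ?_ hkγ)
  show Valued.v (algebraMap K (v.adicCompletion K)
    (algebraMap (𝓞 K) K c * (algebraMap (𝓞 K) K a - k / algebraMap (𝓞 K) K c))) < γ'
  rw [valued_algebraMap566, map_mul, hcval, one_mul]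
  exact ha

end Fermat.Agent.LT.T2.H566

end
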