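import Mathlib
import Fermat.Agent.LT.T2.Spec
import Fermat.Agent.LT.T2.H566.Local

/-!
# Row LT, tower T2, leaf T2.09 (helper566): the Hecke sums do not depend on the coset system

OFF-MAIN.

* `inLevelGroup_of_local566`: an element supported at `v ∤ 𝔫`, integral with integral inverse,
  lies in `U(𝔫)`.
* `isIntegralAt_inv566`: an integral element whose determinant is a unit at `v` has an integral
  inverse at `v`.
* `heckeSum_indep566`: for a right `U(𝔫)`-invariant function the Hecke sum at `v ∤ 𝔫` does not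
  depend on the coset system (`T1.HeckeCosetC`).
* `shift_indep566`: the same for the shift by a scalar uniformiser.
-/

set_option autoImplicit false
set_option linter.unusedSectionVars false
set_option linter.style.haveILetI false

open IsDedekindDomain NumberField
open Fermat.Agent.LT.H556.A0 Fermat.Agent.LT Fermat.Agent.LT.T1.H793 Fermat.Agent.LT.T2

noncomputable section

namespace Fermat.Agent.LT.T2.H566

variable {K : Type} [Field K] [NumberField K]

theorem one_mem_integers566 (v : HeightOneSpectrum (𝓞 K)) (i j : Fin 2) :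
    (1 : Matrix (Fin 2) (Fin 2) (v.adicCompletion K)) i j ∈ v.adicCompletionIntegers K := by
  by_cases h : i = j
  · subst h
    rw [Matrix.one_apply_eq]
    exact one_mem _
  · rw [Matrix.one_apply_ne h]
    exact zero_mem _

/-- An element supported at `v ∤ 𝔫`, integral with integral inverse, lies in `U(𝔫)`. -/
theorem inLevelGroup_of_local566 (𝔫 : Ideal (𝓞 K)) (v : HeightOneSpectrum (𝓞 K))
    (hv : ¬ v.asIdeal ∣ 𝔫) {k : G K} (hk : IsLocalAtFin v k) (hi : IsIntegralAt v k)
    (hi' : IsIntegralAt v k⁻¹) : InLevelGroup 𝔫 k := by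
  refine ⟨hk.1, fun v' i j => ?_⟩
  by_cases hv' : v' = v
  · subst hv'
    constructor
    · refine integers_subset_idealClosure566 𝔫 v' hv ?_
      rw [Matrix.sub_apply]
      exact sub_mem (hi i j) (one_mem_integers566 v' i j)
    · refine integers_subset_idealClosure566 𝔫 v' hv ?_
      rw [Matrix.sub_apply]
      exact sub_mem (hi' i j) (one_mem_integers566 v' i j)
  · have h1 : finComp v' k = 1 := hk.2 v' hv'
    have h2 : finComp v' k⁻¹ = 1 := (IsLocalAtFin.inv566 hk).2 v' hv'
    rw [h1, h2, sub_self]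
    exact ⟨zero_mem_idealClosure566 𝔫 v', zero_mem_idealClosure566 𝔫 v'⟩

theorem isIntegralAt_mul566 (v : HeightOneSpectrum (𝓞 K)) {g h : G K}
    (hg : IsIntegralAt v g) (hh : IsIntegralAt v h) : IsIntegralAt v (g * h) := by
  intro i j
  rw [finComp_mul566, Matrix.mul_apply]
  exact sum_mem (fun l _ => mul_mem (hg i l) (hh l j))

/-- An integral element whose determinant is a unit at `v` has an integral inverse at `v`. -/
theorem isIntegralAt_inv566 (v : HeightOneSpectrum (𝓞 K)) {k : G K} (hi : IsIntegralAt v k)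
    (hdet : Valued.v (finComp v k).det = 1) : IsIntegralAt v k⁻¹ := by
  have hinv : finComp v k⁻¹ = (finComp v k)⁻¹ :=
    (Matrix.inv_eq_left_inv (finComp_inv_mul566 v k)).symm
  have hd0 : (finComp v k).det ≠ 0 := by
    intro h0
    rw [h0, map_zero] at hdet
    exact zero_ne_one hdet
  have hdinv : ((finComp v k).det)⁻¹ ∈ v.adicCompletionIntegers K := by
    rw [HeightOneSpectrum.mem_adicCompletionIntegers, map_inv₀, hdet, inv_one]
  intro i j
  rw [hinv, Matrix.inv_def, Ring.inverse_eq_inv', Matrix.smul_apply, smul_eq_mul,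
    Matrix.adjugate_fin_two]
  refine mul_mem hdinv ?_
  fin_cases i <;> fin_cases j <;> simp
  · exact hi 1 1
  · exact hi 0 1
  · exact hi 1 0
  · exact hi 0 0

theorem det_finComp_inv566 (v : HeightOneSpectrum (𝓞 K)) (g : G K) :
    (finComp v g⁻¹).det * (finComp v g).det = 1 := by
  rw [← Matrix.det_mul, finComp_inv_mul566, Matrix.det_one]

/-- The quotient of two elements of the same determinant valuation, if integral, is in
`U(𝔫)`. -/
theorem quot_inv_integral566 (v : HeightOneSpectrum (𝓞 K)) {h h' : G K}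
    (hd : Valued.v (finComp v h).det = Valued.v (finComp v h').det)
    (hint : IsIntegralAt v (h⁻¹ * h')) : IsIntegralAt v (h⁻¹ * h')⁻¹ := by
  have hdet : Valued.v (finComp v (h⁻¹ * h')).det = 1 := by
    rw [finComp_mul566, Matrix.det_mul, map_mul, ← hd]
    rw [← map_mul, det_finComp_inv566, map_one]
  exact isIntegralAt_inv566 v hint hdet

theorem inLevelGroup_quot566 (𝔫 : Ideal (𝓞 K)) (v : HeightOneSpectrum (𝓞 K))
    (hv : ¬ v.asIdeal ∣ 𝔫) {h h' : G K} (hh : IsLocalAtFin v h) (hh' : IsLocalAtFin v h')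
    (hd : Valued.v (finComp v h).det = Valued.v (finComp v h').det)
    (hint : IsIntegralAt v (h⁻¹ * h')) : InLevelGroup 𝔫 (h⁻¹ * h') := by
  have hloc : IsLocalAtFin v (h⁻¹ * h') := IsLocalAtFin.mul566 (IsLocalAtFin.inv566 hh) hh'
  exact inLevelGroup_of_local566 𝔫 v hv hloc hint (quot_inv_integral566 v hd hint)

section Hecke

variable (hHC : T1.HeckeCosetC K) (𝔫 : Ideal (𝓞 K)) (v : HeightOneSpectrum (𝓞 K))
  (hv : ¬ v.asIdeal ∣ 𝔫)

theorem exp_neg_one_ne_zero566 : (WithZero.exp (-1 : ℤ) : WithZero (Multiplicative ℤ)) ≠ 0 :=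
  WithZero.exp_ne_zero

include hHC hv in
/-- The Hecke sum of a right `U(𝔫)`-invariant function does not depend on the coset system. -/
theorem heckeSum_indep566 {H H' : Finset (G K)} (hH : IsHeckeCosetSystem v H)
    (hH' : IsHeckeCosetSystem v H') {φ : G K → ℂ}
    (hφ : ∀ u : G K, InLevelGroup 𝔫 u → ∀ g : G K, φ (g * u) = φ g) :
    heckeSum H' φ = heckeSum H φ := by
  classical
  -- the matching `H' → H`
  have hex : ∀ h' ∈ H', ∃ h ∈ H, IsIntegralAt v (h⁻¹ * h') := by
    intro h' hh'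
    obtain ⟨hl, hi, hd⟩ := hH'.2.1 h' hh'
    exact (hHC v).2.1 H hH h' hl hi hd
  choose! σ hσH hσint using hex
  have hdeq : ∀ h' ∈ H', Valued.v (finComp v (σ h')).det = Valued.v (finComp v h').det := by
    intro h' hh'
    obtain ⟨-, -, hd'⟩ := hH'.2.1 h' hh'
    obtain ⟨-, -, hd⟩ := hH.2.1 (σ h') (hσH h' hh')
    exact hd.trans hd'.symm
  have hlevel : ∀ h' ∈ H', InLevelGroup 𝔫 ((σ h')⁻¹ * h') := by
    intro h' hh'
    obtain ⟨hl', -, -⟩ := hH'.2.1 h' hh'
    obtain ⟨hl, -, -⟩ := hH.2.1 (σ h') (hσH h' hh')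
    exact inLevelGroup_quot566 𝔫 v hv hl hl' (hdeq h' hh') (hσint h' hh')
  have hinj : ∀ a₁ ∈ H', ∀ a₂ ∈ H', σ a₁ = σ a₂ → a₁ = a₂ := by
    intro a₁ ha₁ a₂ ha₂ he
    by_contra hne
    refine hH'.2.2 a₁ ha₁ a₂ ha₂ hne ?_
    have h1 : IsIntegralAt v ((σ a₁)⁻¹ * a₁)⁻¹ :=
      quot_inv_integral566 v (hdeq a₁ ha₁) (hσint a₁ ha₁)
    have h2 : IsIntegralAt v ((σ a₂)⁻¹ * a₂) := hσint a₂ ha₂
    have e : a₁⁻¹ * a₂ = ((σ a₁)⁻¹ * a₁)⁻¹ * ((σ a₂)⁻¹ * a₂) := by
      rw [he]
      group
    rw [e]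
    exact isIntegralAt_mul566 v h1 h2
  funext g
  unfold heckeSum
  refine Finset.sum_bij (fun a _ => σ a) hσH hinj ?_ ?_
  · exact fun b hb => by
      obtain ⟨a, ha, hab⟩ := Finset.surj_on_of_inj_on_of_card_le (fun a _ => σ a) hσH
        (fun a₁ a₂ ha₁ ha₂ he => hinj a₁ ha₁ a₂ ha₂ he) (by rw [hH.1, hH'.1]) b hb
      exact ⟨a, ha, hab.symm⟩
  · intro a ha
    have := hφ _ (hlevel a ha) (g * σ a)
    rw [← this]
    congr 1
    group

theorem finComp_inv_of_diag566 {z : G K} {c : v.adicCompletion K} (hc : c ≠ 0)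
    (hz : finComp v z = Matrix.diagonal (fun _ => c)) :
    finComp v z⁻¹ = Matrix.diagonal (fun _ => c⁻¹) := by
  have h1 : finComp v z⁻¹ = (finComp v z)⁻¹ :=
    (Matrix.inv_eq_left_inv (finComp_inv_mul566 v z)).symm
  rw [h1, hz]
  apply Matrix.inv_eq_left_inv
  rw [Matrix.diagonal_mul_diagonal]
  simp only [inv_mul_cancel₀ hc]
  exact Matrix.diagonal_one

include hv in
/-- The shift of a right `U(𝔫)`-invariant function by a scalar uniformiser at `v ∤ 𝔫` does not
depend on the uniformiser. -/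
theorem shift_indep566 {z z' : G K} (hz : IsScalarUniformizerAt v z)
    (hz' : IsScalarUniformizerAt v z') {φ : G K → ℂ}
    (hφ : ∀ u : G K, InLevelGroup 𝔫 u → ∀ g : G K, φ (g * u) = φ g) :
    shift z' φ = shift z φ := by
  obtain ⟨hl, c, hc, hzc⟩ := hz
  obtain ⟨hl', c', hc', hzc'⟩ := hz'
  have hc0 : c ≠ 0 := by
    intro h
    rw [h, map_zero] at hc
    exact exp_neg_one_ne_zero566 hc.symm
  have hdet : ∀ d : v.adicCompletion K,
      (Matrix.diagonal (fun _ : Fin 2 => d)).det = d * d := by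
    intro d
    rw [Matrix.det_diagonal, Fin.prod_univ_two]
  have hd : Valued.v (finComp v z).det = Valued.v (finComp v z').det := by
    rw [hzc, hzc', hdet, hdet, map_mul, map_mul, hc, hc']
  have hint : IsIntegralAt v (z⁻¹ * z') := by
    intro i j
    rw [finComp_mul566, finComp_inv_of_diag566 v hc0 hzc, hzc', Matrix.diagonal_mul_diagonal]
    by_cases h : i = j
    · subst h
      rw [Matrix.diagonal_apply_eq, HeightOneSpectrum.mem_adicCompletionIntegers, map_mul,
        map_inv₀, hc, hc', inv_mul_cancel₀ exp_neg_one_ne_zero566]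
    · rw [Matrix.diagonal_apply_ne _ h]
      exact zero_mem _
  have hlev := inLevelGroup_quot566 𝔫 v hv hl hl' hd hint
  funext g
  unfold shift
  have := hφ _ hlev (g * z)
  rw [← this]
  congr 1
  group

end Hecke

/-- The parametrisation of a geodesic sphere is unique. -/
theorem isSphereAt_unique566 {w : InfinitePlace K} {d : ℝ} {Y Y' : ℝ → ℝ → G K}
    (hY : IsSphereAt w d Y) (hY' : IsSphereAt w d Y') : Y' = Y := by
  funext α β
  exact eq_of_isLocalAtInf566 (hY' α β).1 (hY α β).1 ((hY' α β).2.trans (hY α β).2.symm)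

/-- The parametrisation of a geodesic circle is unique. -/
theorem isCircleAt_unique566 {w : InfinitePlace K} {t : ℝ} {Y Y' : ℝ → G K}
    (hY : IsCircleAt w t Y) (hY' : IsCircleAt w t Y') : Y' = Y := by
  funext θ
  exact eq_of_isLocalAtInf566 (hY' θ).1 (hY θ).1 ((hY' θ).2.trans (hY θ).2.symm)

end Fermat.Agent.LT.T2.H566

end
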