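import Mathlib
import Fermat.Agent.LT.T2.Spec

/-!
# Row LT, tower T2, leaf T2.09 (helper566): the cusp functions form a vector space

OFF-MAIN.  Imports: Mathlib, `LT/T2/Spec.lean` (helper130, v1) with its imports.

* `continuous_unip566`: the unipotent map `x ↦ n(x)` of `A0.IsCuspidalFn` is continuous.
* `measure_fundDom_lt_top566`: every fundamental domain of `K` in `𝔸_K` has finite Haar measure
  (from `T1.AddFundDomC`).
* `isCuspFn_add566`, `isCuspFn_smul566`, `isCuspFn_zero566`: the cusp functions of level `U(𝔫)`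
  are a linear subspace (from `T1.LocCompC`, `T1.AddFundDomC`).
* `cuspSub566`: the subspace.
-/

set_option autoImplicit false
set_option linter.unusedSectionVars false
set_option linter.style.haveILetI false

open IsDedekindDomain NumberField MeasureTheory
open Fermat.Agent.LT.H556.A0 Fermat.Agent.LT

noncomputable section

namespace Fermat.Agent.LT.T2.H566

variable {K : Type} [Field K] [NumberField K]

/-- The matrix of the inverse of `n(x)`. -/
theorem unip_inv_val566 (n : Adl K → G K)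
    (hn : ∀ x : Adl K, (n x : Matrix (Fin 2) (Fin 2) (Adl K)) = !![1, x; 0, 1]) (x : Adl K) :
    (((n x)⁻¹ : G K) : Matrix (Fin 2) (Fin 2) (Adl K)) = !![1, -x; 0, 1] := by
  have h : ((n x : G K) : Matrix (Fin 2) (Fin 2) (Adl K)) * !![1, -x; 0, 1] = 1 := by
    rw [hn x]
    ext i j
    fin_cases i <;> fin_cases j <;> simp [Matrix.mul_apply, Fin.sum_univ_two]
  exact Units.inv_eq_of_mul_eq_one_right h

/-- The unipotent map is continuous. -/
theorem continuous_unip566 (n : Adl K → G K)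
    (hn : ∀ x : Adl K, (n x : Matrix (Fin 2) (Fin 2) (Adl K)) = !![1, x; 0, 1]) :
    Continuous n := by
  rw [Units.continuous_iff]
  constructor
  · have : (fun x => ((n x : G K) : Matrix (Fin 2) (Fin 2) (Adl K)))
        = fun x => !![1, x; 0, 1] := funext hn
    show Continuous (fun x => ((n x : G K) : Matrix (Fin 2) (Fin 2) (Adl K)))
    rw [this]
    refine continuous_matrix (fun i j => ?_)
    fin_cases i <;> fin_cases j <;> simp <;> fun_prop
  · have : (fun x => (((n x)⁻¹ : G K) : Matrix (Fin 2) (Fin 2) (Adl K)))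
        = fun x => !![1, -x; 0, 1] := funext (unip_inv_val566 n hn)
    show Continuous (fun x => (((n x)⁻¹ : G K) : Matrix (Fin 2) (Fin 2) (Adl K)))
    rw [this]
    refine continuous_matrix (fun i j => ?_)
    fin_cases i <;> fin_cases j <;> simp <;> fun_prop

/-- `K` is countable. -/
theorem countable_princ566 : Countable (T1.princ K) := by
  haveI : Countable K :=
    (Module.finBasis ℚ K).equivFun.injective.countable
  unfold T1.princ
  exact (Set.countable_range _).to_subtype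

section Borel

attribute [local instance] Fermat.Agent.LT.T2.borelG

/-- Every fundamental domain of `K` in `𝔸_K` has finite measure. -/
theorem measure_fundDom_lt_top566 (hFD : T1.AddFundDomC K) :
    letI : MeasurableSpace (Adl K) := borel (Adl K)
    ∀ μ : Measure (Adl K), μ.IsAddHaarMeasure → ∀ D : Set (Adl K),
      IsAddFundamentalDomain ((algebraMap K (Adl K)).toAddMonoidHom.range) D μ → μ D < ⊤ := by
  letI : MeasurableSpace (Adl K) := borel (Adl K)
  haveI : BorelSpace (Adl K) := ⟨rfl⟩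
  intro μ hμ D hD
  haveI := hμ
  haveI : Countable (T1.princ K) := countable_princ566
  obtain ⟨D₀, -, hD₀, -, -, hfin⟩ := hFD μ hμ
  have hD' : IsAddFundamentalDomain (T1.princ K) D μ := hD
  rw [hD'.measure_eq hD₀]
  exact hfin

/-- The constant term integrand of a bounded continuous function is integrable on every
fundamental domain. -/
theorem integrable_unip566 (hFD : T1.AddFundDomC K) {φ : G K → ℂ} (hc : Continuous φ)
    (hb : ∃ C : ℝ, ∀ g : G K, ‖φ g‖ ≤ C) :
    letI : MeasurableSpace (Adl K) := borel (Adl K)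
    ∀ μ : Measure (Adl K), μ.IsAddHaarMeasure → ∀ D : Set (Adl K),
      IsAddFundamentalDomain ((algebraMap K (Adl K)).toAddMonoidHom.range) D μ →
      ∀ n : Adl K → G K,
        (∀ x : Adl K, (n x : Matrix (Fin 2) (Fin 2) (Adl K)) = !![1, x; 0, 1]) →
        ∀ g : G K, Integrable (fun x => φ (n x * g)) (μ.restrict D) := by
  letI : MeasurableSpace (Adl K) := borel (Adl K)
  haveI : BorelSpace (Adl K) := ⟨rfl⟩
  intro μ hμ D hD n hn g
  obtain ⟨C, hC⟩ := hb
  haveI : IsFiniteMeasure (μ.restrict D) :=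
    isFiniteMeasure_restrict.2 (measure_fundDom_lt_top566 hFD μ hμ D hD).ne
  have hcont : Continuous (fun x => φ (n x * g)) :=
    hc.comp ((continuous_unip566 n hn).mul continuous_const)
  exact Integrable.of_bound hcont.aestronglyMeasurable C (Filter.Eventually.of_forall fun x => hC _)

theorem isCuspidalFn_add_smul566 (hFD : T1.AddFundDomC K) {φ ψ : G K → ℂ}
    (hφc : Continuous φ) (hφb : ∃ C : ℝ, ∀ g : G K, ‖φ g‖ ≤ C)
    (hψc : Continuous ψ) (hψb : ∃ C : ℝ, ∀ g : G K, ‖ψ g‖ ≤ C)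
    (hφ : IsCuspidalFn φ) (hψ : IsCuspidalFn ψ) (c : ℂ) :
    IsCuspidalFn (fun g => φ g + c * ψ g) := by
  letI : MeasurableSpace (Adl K) := borel (Adl K)
  intro μ hμ D hD n hn g
  have h1 := integrable_unip566 hFD hφc hφb μ hμ D hD n hn g
  have h2 := integrable_unip566 hFD hψc hψb μ hμ D hD n hn g
  have e : (fun x => (fun g => φ g + c * ψ g) (n x * g))
      = (fun x => φ (n x * g)) + fun x => c * ψ (n x * g) := rfl
  rw [e, integral_add' h1 (h2.const_mul c)]
  have e2 : ∫ x in D, c * ψ (n x * g) ∂μ = c * ∫ x in D, ψ (n x * g) ∂μ :=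
    integral_const_mul c _
  rw [hφ μ hμ D hD n hn g, e2, hψ μ hμ D hD n hn g]
  simp

end Borel

theorem isCuspFn_add_smul566 (hFD : T1.AddFundDomC K) {𝔫 : Ideal (𝓞 K)} {φ ψ : G K → ℂ}
    (hφ : IsCuspFn 𝔫 φ) (hψ : IsCuspFn 𝔫 ψ) (c : ℂ) :
    IsCuspFn 𝔫 (fun g => φ g + c * ψ g) where
  cont := hφ.cont.add (continuous_const.mul hψ.cont)
  bdd := by
    obtain ⟨A, hA⟩ := hφ.bdd
    obtain ⟨B, hB⟩ := hψ.bdd
    refine ⟨A + ‖c‖ * B, fun g => ?_⟩
    calc ‖φ g + c * ψ g‖ ≤ ‖φ g‖ + ‖c * ψ g‖ := norm_add_le _ _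
      _ = ‖φ g‖ + ‖c‖ * ‖ψ g‖ := by rw [norm_mul]
      _ ≤ A + ‖c‖ * B := add_le_add (hA g) (mul_le_mul_of_nonneg_left (hB g) (norm_nonneg c))
  left_inv := fun γ g => by simp only [hφ.left_inv γ g, hψ.left_inv γ g]
  level_inv := fun u hu g => by simp only [hφ.level_inv u hu g, hψ.level_inv u hu g]
  arch_scalar := fun w z hz g => by simp only [hφ.arch_scalar w z hz g, hψ.arch_scalar w z hz g]
  arch_compact := fun w k hk g => by
    simp only [hφ.arch_compact w k hk g, hψ.arch_compact w k hk g]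
  cuspidal := isCuspidalFn_add_smul566 hFD hφ.cont hφ.bdd hψ.cont hψ.bdd hφ.cuspidal hψ.cuspidal c

theorem isCuspFn_zero566 (𝔫 : Ideal (𝓞 K)) : IsCuspFn 𝔫 (fun _ : G K => (0 : ℂ)) where
  cont := continuous_const
  bdd := ⟨0, fun g => by simp⟩
  left_inv := fun _ _ => rfl
  level_inv := fun _ _ _ => rfl
  arch_scalar := fun _ _ _ _ => rfl
  arch_compact := fun _ _ _ _ => rfl
  cuspidal := by
    intro μ _ D _ n _ g
    simp

/-- The space of cusp functions of level `U(𝔫)`. -/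
def cuspSub566 (hFD : T1.AddFundDomC K) (𝔫 : Ideal (𝓞 K)) : Submodule ℂ (G K → ℂ) where
  carrier := {φ | IsCuspFn 𝔫 φ}
  add_mem' := by
    intro φ ψ hφ hψ
    have := isCuspFn_add_smul566 hFD hφ hψ 1
    have e : (fun g : G K => φ g + 1 * ψ g) = φ + ψ := by
      funext g
      simp
    rw [e] at this
    exact this
  zero_mem' := isCuspFn_zero566 𝔫
  smul_mem' := by
    intro c φ hφ
    have := isCuspFn_add_smul566 hFD (isCuspFn_zero566 𝔫) hφ c
    have e : (fun g : G K => (0 : ℂ) + c * φ g) = c • φ := by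
      funext g
      simp
    rw [e] at this
    exact this

theorem mem_cuspSub566 (hFD : T1.AddFundDomC K) (𝔫 : Ideal (𝓞 K)) (φ : G K → ℂ) :
    φ ∈ cuspSub566 hFD 𝔫 ↔ IsCuspFn 𝔫 φ := Iff.rfl

/-- The space of cusp functions as a TYPE SYNONYM of the subspace, without the topology of
pointwise convergence (it gets the `L²`-norm of a frame). -/
def CuspV566 (hFD : T1.AddFundDomC K) (𝔫 : Ideal (𝓞 K)) : Type := ↥(cuspSub566 hFD 𝔫)

instance instAddCommGroupCuspV566 (hFD : T1.AddFundDomC K) (𝔫 : Ideal (𝓞 K)) :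
    AddCommGroup (CuspV566 hFD 𝔫) :=
  inferInstanceAs (AddCommGroup ↥(cuspSub566 hFD 𝔫))

instance instModuleCuspV566 (hFD : T1.AddFundDomC K) (𝔫 : Ideal (𝓞 K)) :
    Module ℂ (CuspV566 hFD 𝔫) :=
  inferInstanceAs (Module ℂ ↥(cuspSub566 hFD 𝔫))

/-- The underlying function. -/
def CuspV566.fn {hFD : T1.AddFundDomC K} {𝔫 : Ideal (𝓞 K)} (x : CuspV566 hFD 𝔫) : G K → ℂ :=
  Subtype.val x

/-- The element of the space defined by a cusp function. -/
def CuspV566.mk {hFD : T1.AddFundDomC K} {𝔫 : Ideal (𝓞 K)} (φ : G K → ℂ) (hφ : IsCuspFn 𝔫 φ) :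
    CuspV566 hFD 𝔫 :=
  (⟨φ, hφ⟩ : ↥(cuspSub566 hFD 𝔫))

theorem CuspV566.isCuspFn {hFD : T1.AddFundDomC K} {𝔫 : Ideal (𝓞 K)} (x : CuspV566 hFD 𝔫) :
    IsCuspFn 𝔫 x.fn := Subtype.property x

@[simp]
theorem CuspV566.fn_mk {hFD : T1.AddFundDomC K} {𝔫 : Ideal (𝓞 K)} (φ : G K → ℂ)
    (hφ : IsCuspFn 𝔫 φ) : (CuspV566.mk (hFD := hFD) φ hφ).fn = φ := rfl

theorem CuspV566.ext {hFD : T1.AddFundDomC K} {𝔫 : Ideal (𝓞 K)} {x y : CuspV566 hFD 𝔫}
    (h : x.fn = y.fn) : x = y := Subtype.ext h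

theorem CuspV566.fn_add {hFD : T1.AddFundDomC K} {𝔫 : Ideal (𝓞 K)} (x y : CuspV566 hFD 𝔫) :
    (x + y).fn = x.fn + y.fn := rfl

theorem CuspV566.fn_sub {hFD : T1.AddFundDomC K} {𝔫 : Ideal (𝓞 K)} (x y : CuspV566 hFD 𝔫) :
    (x - y).fn = fun g => x.fn g - y.fn g := rfl

theorem CuspV566.fn_smul {hFD : T1.AddFundDomC K} {𝔫 : Ideal (𝓞 K)} (c : ℂ)
    (x : CuspV566 hFD 𝔫) : (c • x).fn = c • x.fn := rfl

end Fermat.Agent.LT.T2.H566

end
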