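import Mathlib
import Fermat.Agent.LT.T2.Spec
import Fermat.Agent.LT.T2.H566.CuspSub

/-!
# Row LT, tower T2, leaf T2.09 (helper566): the pre-Hilbert space of cusp functions

OFF-MAIN.  The space `cuspSub566` with the Petersson pairing of a frame is a complex inner product
space (`cuspCore566`), by `T2.PairDefinite`.  `inner φ ψ = pair F ψ φ` (Mathlib's inner product is
conjugate linear in the FIRST variable, `T2.pair` in the second).
-/

set_option autoImplicit false
set_option linter.unusedSectionVars false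
set_option linter.style.haveILetI false

open IsDedekindDomain NumberField MeasureTheory
open Fermat.Agent.LT.H556.A0 Fermat.Agent.LT
open scoped ComplexConjugate

noncomputable section

namespace Fermat.Agent.LT.T2.H566

variable {K : Type} [Field K] [NumberField K]

attribute [local instance] Fermat.Agent.LT.T2.borelG

/-- Products of bounded continuous functions are integrable on the domain of a frame. -/
theorem integrable_pair566 (F : Frame K) {φ ψ : G K → ℂ}
    (hφc : Continuous φ) (hφb : ∃ C : ℝ, ∀ g : G K, ‖φ g‖ ≤ C)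
    (hψc : Continuous ψ) (hψb : ∃ C : ℝ, ∀ g : G K, ‖ψ g‖ ≤ C) :
    Integrable (fun g => φ g * conj (ψ g)) (F.μ.restrict F.D) := by
  haveI : BorelSpace (G K) := ⟨rfl⟩
  obtain ⟨A, hA⟩ := hφb
  obtain ⟨B, hB⟩ := hψb
  haveI : IsFiniteMeasure (F.μ.restrict F.D) := isFiniteMeasure_restrict.2 F.fin.ne
  have hcont : Continuous (fun g => φ g * conj (ψ g)) :=
    hφc.mul (Complex.continuous_conj.comp hψc)
  refine Integrable.of_bound hcont.aestronglyMeasurable (A * B)
    (Filter.Eventually.of_forall fun g => ?_)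
  have hA0 : 0 ≤ A := (norm_nonneg _).trans (hA g)
  calc ‖φ g * conj (ψ g)‖ = ‖φ g‖ * ‖ψ g‖ := by rw [norm_mul, RCLike.norm_conj]
    _ ≤ A * B := mul_le_mul (hA g) (hB g) (norm_nonneg _) hA0

theorem pair_add_left566 (F : Frame K) {𝔫 : Ideal (𝓞 K)} {φ₁ φ₂ ψ : G K → ℂ}
    (h₁ : IsCuspFn 𝔫 φ₁) (h₂ : IsCuspFn 𝔫 φ₂) (hψ : IsCuspFn 𝔫 ψ) :
    pair F (φ₁ + φ₂) ψ = pair F φ₁ ψ + pair F φ₂ ψ := by
  unfold pair
  rw [← integral_add (integrable_pair566 F h₁.cont h₁.bdd hψ.cont hψ.bdd)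
    (integrable_pair566 F h₂.cont h₂.bdd hψ.cont hψ.bdd)]
  congr 1
  funext g
  simp [add_mul]

theorem pair_add_right566 (F : Frame K) {𝔫 : Ideal (𝓞 K)} {φ ψ₁ ψ₂ : G K → ℂ}
    (hφ : IsCuspFn 𝔫 φ) (h₁ : IsCuspFn 𝔫 ψ₁) (h₂ : IsCuspFn 𝔫 ψ₂) :
    pair F φ (ψ₁ + ψ₂) = pair F φ ψ₁ + pair F φ ψ₂ := by
  unfold pair
  rw [← integral_add (integrable_pair566 F hφ.cont hφ.bdd h₁.cont h₁.bdd)
    (integrable_pair566 F hφ.cont hφ.bdd h₂.cont h₂.bdd)]
  congr 1
  funext g
  simp [mul_add]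

theorem pair_smul_left566 (F : Frame K) (c : ℂ) (φ ψ : G K → ℂ) :
    pair F (c • φ) ψ = c * pair F φ ψ := by
  unfold pair
  rw [← integral_const_mul]
  congr 1
  funext g
  simp [mul_assoc]

theorem pair_smul_right566 (F : Frame K) (c : ℂ) (φ ψ : G K → ℂ) :
    pair F φ (c • ψ) = conj c * pair F φ ψ := by
  unfold pair
  rw [← integral_const_mul]
  congr 1
  funext g
  simp only [Pi.smul_apply, smul_eq_mul, map_mul]
  ring

theorem pair_conj566 (F : Frame K) (φ ψ : G K → ℂ) :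
    conj (pair F φ ψ) = pair F ψ φ := by
  unfold pair
  rw [← integral_conj]
  congr 1
  funext g
  simp only [map_mul, Complex.conj_conj]
  ring

theorem pair_self_eq566 (F : Frame K) (φ : G K → ℂ) :
    pair F φ φ = ((∫ g in F.D, Complex.normSq (φ g) ∂F.μ : ℝ) : ℂ) := by
  unfold pair
  have e : (fun g => φ g * conj (φ g)) = fun g => ((Complex.normSq (φ g) : ℝ) : ℂ) := by
    funext g
    rw [Complex.mul_conj]
  rw [e]
  exact integral_ofReal

theorem nsq_eq566 (F : Frame K) (φ : G K → ℂ) :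
    nsq F φ = ∫ g in F.D, Complex.normSq (φ g) ∂F.μ := by
  unfold nsq
  rw [pair_self_eq566]
  simp

theorem nsq_nonneg566 (F : Frame K) (φ : G K → ℂ) : 0 ≤ nsq F φ := by
  rw [nsq_eq566]
  exact integral_nonneg fun g => Complex.normSq_nonneg _

theorem pair_self_ofReal566 (F : Frame K) (φ : G K → ℂ) :
    pair F φ φ = ((nsq F φ : ℝ) : ℂ) := by
  rw [nsq_eq566, pair_self_eq566]

/-- The inner product core of the cusp functions. -/
@[instance_reducible]
def cuspCore566 (hFD : T1.AddFundDomC K) (𝔫 : Ideal (𝓞 K)) (F : Frame K)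
    (hPD : PairDefinite K 𝔫) : InnerProductSpace.Core ℂ (CuspV566 hFD 𝔫) where
  inner := fun φ ψ => pair F ψ.fn φ.fn
  conj_inner_symm := fun φ ψ => pair_conj566 F _ _
  re_inner_nonneg := fun φ => nsq_nonneg566 F _
  add_left := fun φ ψ χ => pair_add_right566 F χ.isCuspFn φ.isCuspFn ψ.isCuspFn
  smul_left := fun φ ψ r => pair_smul_right566 F r _ _
  definite := fun φ h => by
    have := (hPD F φ.fn φ.isCuspFn).2 h
    apply CuspV566.ext
    funext g
    exact this g

end Fermat.Agent.LT.T2.H566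

end
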