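import Mathlib
import Fermat.Agent.LT.T2.Spec
import Fermat.Agent.LT.T2.H566.CuspSub
import Fermat.Agent.LT.T2.H566.CuspInner

/-!
# Row LT, tower T2, leaf T2.09 (helper566): the joint eigenbasis of the cusp functions

OFF-MAIN.  `exists_jointEig566`: from `T2.AbstractSpectral` and the milestones `PairDefinite`,
`HSBound`, `ConvRegular`, `ApproxId`, `OpsGood`: an orthonormal family of cusp functions, joint
eigenfunctions of ALL operators `T2.IsOp`, with Parseval for every cusp function.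
-/

set_option autoImplicit false
set_option linter.unusedSectionVars false
set_option linter.style.haveILetI false

open IsDedekindDomain NumberField MeasureTheory
open Fermat.Agent.LT.H556.A0 Fermat.Agent.LT
open scoped ComplexConjugate

noncomputable section

namespace Fermat.Agent.LT.T2.H566

variable {K : Type} [Field K] [NumberField K]

attribute [local instance] Fermat.Agent.LT.T2.borelG

/-- The statement extracted from the abstract spectral theorem. -/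
def JointEig566 (𝔫 : Ideal (𝓞 K)) (F : Frame K) : Prop :=
  ∃ (ι : Type) (e : ι → G K → ℂ), (∀ j, IsCuspFn 𝔫 (e j)) ∧
    (∀ j, pair F (e j) (e j) = 1) ∧ (∀ i j, i ≠ j → pair F (e i) (e j) = 0) ∧
    (∀ T, IsOp 𝔫 F T → ∀ j, ∃ c : ℂ, T (e j) = c • e j) ∧
    ∀ φ : G K → ℂ, IsCuspFn 𝔫 φ → HasSum (fun j => ‖pair F φ (e j)‖ ^ 2) (nsq F φ)

section Ops

variable (hFD : T1.AddFundDomC K) (𝔫 : Ideal (𝓞 K)) (F : Frame K)

/-- An operator of the tower kills the zero function. -/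
theorem op_zero566 (hOG : OpsGood K 𝔫) {T : (G K → ℂ) → (G K → ℂ)} (hT : IsOp 𝔫 F T) :
    T (fun _ => 0) = fun _ => 0 := by
  have h := (hOG F).2.1 T hT (fun _ => 0) (fun _ => 0) 1 (isCuspFn_zero566 𝔫) (isCuspFn_zero566 𝔫)
  have e : (fun g : G K => (fun _ => (0 : ℂ)) g + 1 * (fun _ => (0 : ℂ)) g) = fun _ => 0 := by
    funext g
    simp
  rw [e] at h
  funext g
  have := congrFun h g
  simp only [one_mul] at this
  exact left_eq_add.mp this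

theorem op_add566 (hOG : OpsGood K 𝔫) {T : (G K → ℂ) → (G K → ℂ)} (hT : IsOp 𝔫 F T)
    {φ ψ : G K → ℂ}
    (hφ : IsCuspFn 𝔫 φ) (hψ : IsCuspFn 𝔫 ψ) : T (φ + ψ) = T φ + T ψ := by
  have h := (hOG F).2.1 T hT φ ψ 1 hφ hψ
  have e : (fun g : G K => φ g + 1 * ψ g) = φ + ψ := by
    funext g
    simp
  rw [e] at h
  rw [h]
  funext g
  simp

theorem op_smul566 (hOG : OpsGood K 𝔫) {T : (G K → ℂ) → (G K → ℂ)} (hT : IsOp 𝔫 F T) (c : ℂ)
    {φ : G K → ℂ}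
    (hφ : IsCuspFn 𝔫 φ) : T (c • φ) = c • T φ := by
  have h := (hOG F).2.1 T hT (fun _ => 0) φ c (isCuspFn_zero566 𝔫) hφ
  have e : (fun g : G K => (fun _ => (0 : ℂ)) g + c * φ g) = c • φ := by
    funext g
    simp
  rw [e] at h
  rw [h, op_zero566 𝔫 F hOG hT]
  funext g
  simp

/-- The operator of the tower as a linear map of the space of cusp functions. -/
def opLin566 (hOG : OpsGood K 𝔫) (T : (G K → ℂ) → (G K → ℂ)) (hT : IsOp 𝔫 F T) :
    CuspV566 hFD 𝔫 →ₗ[ℂ] CuspV566 hFD 𝔫 where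
  toFun φ := CuspV566.mk (T φ.fn) ((hOG F).1 T hT φ.fn φ.isCuspFn)
  map_add' φ ψ := by
    apply CuspV566.ext
    exact op_add566 𝔫 F hOG hT φ.isCuspFn ψ.isCuspFn
  map_smul' c φ := by
    apply CuspV566.ext
    exact op_smul566 𝔫 F hOG hT c φ.isCuspFn

@[simp]
theorem opLin566_coe (hOG : OpsGood K 𝔫) (T : (G K → ℂ) → (G K → ℂ)) (hT : IsOp 𝔫 F T)
    (φ : CuspV566 hFD 𝔫) :
    (opLin566 hFD 𝔫 F hOG T hT φ).fn = T φ.fn := rfl

end Ops

section Main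

variable (hFD : T1.AddFundDomC K) (𝔫 : Ideal (𝓞 K)) (F : Frame K) (hPD : PairDefinite K 𝔫)

/-- The normed group structure of the space of cusp functions. -/
@[instance_reducible]
def cuspNormed566 : NormedAddCommGroup (CuspV566 hFD 𝔫) :=
  @InnerProductSpace.Core.toNormedAddCommGroup ℂ (CuspV566 hFD 𝔫) _ _ _
    (cuspCore566 hFD 𝔫 F hPD)

/-- The inner product space structure of the space of cusp functions. -/
@[instance_reducible]
def cuspInner566 :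
    @InnerProductSpace ℂ (CuspV566 hFD 𝔫) _
      (cuspNormed566 hFD 𝔫 F hPD).toSeminormedAddCommGroup :=
  InnerProductSpace.ofCore (cuspCore566 hFD 𝔫 F hPD).toCore

theorem inner_eq566 (x y : CuspV566 hFD 𝔫) :
    @inner ℂ (CuspV566 hFD 𝔫) (cuspInner566 hFD 𝔫 F hPD).toInner x y = pair F y.fn x.fn := rfl

theorem norm_sq_eq566 (x : CuspV566 hFD 𝔫) :
    (@norm (CuspV566 hFD 𝔫) (cuspNormed566 hFD 𝔫 F hPD).toNorm x) ^ 2 = nsq F x.fn := by
  letI := cuspNormed566 hFD 𝔫 F hPD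
  letI := cuspInner566 hFD 𝔫 F hPD
  rw [@norm_sq_eq_re_inner ℂ _ _ _ _ x, inner_eq566]
  rfl

theorem norm_eq_sqrt566 (x : CuspV566 hFD 𝔫) :
    @norm (CuspV566 hFD 𝔫) (cuspNormed566 hFD 𝔫 F hPD).toNorm x = Real.sqrt (nsq F x.fn) := by
  rw [← norm_sq_eq566 hFD 𝔫 F hPD x, Real.sqrt_sq]
  exact @norm_nonneg _ (cuspNormed566 hFD 𝔫 F hPD).toSeminormedAddCommGroup.toSeminormedAddGroup x

theorem coe_sub566 (x y : CuspV566 hFD 𝔫) :
    (x - y).fn = fun g => x.fn g - y.fn g := rfl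

include hFD hPD in
/-- **The joint eigenbasis** of the cusp functions. -/
theorem exists_jointEig566 (hAS : AbstractSpectral) (hHS : HSBound K 𝔫) (hCR : ConvRegular K 𝔫)
    (hAI : ApproxId K 𝔫) (hOG : OpsGood K 𝔫) : JointEig566 𝔫 F := by
  letI iN : NormedAddCommGroup (CuspV566 hFD 𝔫) := cuspNormed566 hFD 𝔫 F hPD
  letI iI : InnerProductSpace ℂ (CuspV566 hFD 𝔫) := cuspInner566 hFD 𝔫 F hPD
  have hnorm : ∀ x : CuspV566 hFD 𝔫, ‖x‖ = Real.sqrt (nsq F x.fn) :=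
    norm_eq_sqrt566 hFD 𝔫 F hPD
  have hinner : ∀ x y : CuspV566 hFD 𝔫, inner ℂ x y = pair F y.fn x.fn :=
    inner_eq566 hFD 𝔫 F hPD
  set 𝒜 : Set (CuspV566 hFD 𝔫 →ₗ[ℂ] CuspV566 hFD 𝔫) :=
    {A | ∃ T, ∃ hT : IsOp 𝔫 F T, A = opLin566 hFD 𝔫 F hOG T hT} with h𝒜
  set 𝒞 : Set (CuspV566 hFD 𝔫 →ₗ[ℂ] CuspV566 hFD 𝔫) :=
    {A | ∃ f, ∃ hf : IsSphTestFn 𝔫 f,
      A = opLin566 hFD 𝔫 F hOG (conv F f) (IsOp.conv f hf)} with h𝒞
  have h1 : 𝒞 ⊆ 𝒜 := by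
    rintro A ⟨f, hf, rfl⟩
    exact ⟨conv F f, IsOp.conv f hf, rfl⟩
  have h2 : ∀ A ∈ 𝒜, ∀ B ∈ 𝒜, A ∘ₗ B = B ∘ₗ A := by
    rintro A ⟨S, hS, rfl⟩ B ⟨T, hT, rfl⟩
    ext φ : 1
    apply CuspV566.ext
    exact (hOG F).2.2.2.1 S T hS hT φ.fn φ.isCuspFn
  have h3 : ∀ A ∈ 𝒜, ∃ B ∈ 𝒜, ∀ x y : CuspV566 hFD 𝔫,
      inner ℂ (A x) y = inner ℂ x (B y) := by
    rintro A ⟨T, hT, rfl⟩
    obtain ⟨T', hT', hadj⟩ := (hOG F).2.2.2.2 T hT
    refine ⟨opLin566 hFD 𝔫 F hOG T' hT', ⟨T', hT', rfl⟩, fun x y => ?_⟩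
    rw [hinner, hinner]
    have := hadj x.fn y.fn x.isCuspFn y.isCuspFn
    simp only [opLin566_coe]
    rw [← pair_conj566 F (T x.fn) y.fn, this, pair_conj566]
  have h4 : ∀ A ∈ 𝒜, ∃ C : ℝ, ∀ x : CuspV566 hFD 𝔫, ‖A x‖ ≤ C * ‖x‖ := by
    rintro A ⟨T, hT, rfl⟩
    obtain ⟨C, hC⟩ := (hOG F).2.2.1 T hT
    refine ⟨Real.sqrt (max C 0), fun x => ?_⟩
    rw [hnorm, hnorm, ← Real.sqrt_mul (le_max_right C 0)]
    refine Real.sqrt_le_sqrt ?_
    calc nsq F (T x.fn) ≤ C * nsq F x.fn := hC x.fn x.isCuspFn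
      _ ≤ max C 0 * nsq F x.fn :=
        mul_le_mul_of_nonneg_right (le_max_left C 0) (nsq_nonneg566 F _)
  have h5 : ∀ A ∈ 𝒞, ∃ C : ℝ, ∀ (n : ℕ) (x : Fin n → CuspV566 hFD 𝔫), Orthonormal ℂ x →
      ∑ i, ‖A (x i)‖ ^ 2 ≤ C := by
    rintro A ⟨f, hf, rfl⟩
    obtain ⟨C, hC⟩ := hHS F f hf.test
    refine ⟨C, fun n x hx => ?_⟩
    have h := hC n (fun i => (x i).fn) (fun i => (x i).isCuspFn) (fun i j => by
      have := orthonormal_iff_ite.1 hx j i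
      rw [hinner] at this
      rw [this]
      simp only [eq_comm])
    refine le_trans (le_of_eq ?_) h
    refine Finset.sum_congr rfl (fun i _ => ?_)
    rw [hnorm, Real.sq_sqrt (nsq_nonneg566 F _)]
    rfl
  have h6 : ∀ A ∈ 𝒞, ∀ x : ℕ → CuspV566 hFD 𝔫, CauchySeq x →
      ∃ y : CuspV566 hFD 𝔫, Filter.Tendsto (fun k => A (x k)) Filter.atTop (nhds y) := by
    rintro A ⟨f, hf, rfl⟩ x hx
    have hcauchy : ∀ ε : ℝ, 0 < ε → ∃ N : ℕ, ∀ k ≥ N, ∀ l ≥ N,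
        nsq F (fun g => (x k).fn g - (x l).fn g) < ε := by
      intro ε hε
      obtain ⟨N, hN⟩ := Metric.cauchySeq_iff.1 hx (Real.sqrt ε) (Real.sqrt_pos.2 hε)
      refine ⟨N, fun k hk l hl => ?_⟩
      have := hN k hk l hl
      rw [dist_eq_norm, hnorm, coe_sub566] at this
      exact (Real.sqrt_lt_sqrt_iff (nsq_nonneg566 F _)).1 this
    obtain ⟨ψ, hψ, hlim⟩ :=
      hCR F f hf.test (fun k => (x k).fn) (fun k => (x k).isCuspFn) hcauchy
    refine ⟨CuspV566.mk ψ hψ, ?_⟩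
    rw [tendsto_iff_norm_sub_tendsto_zero]
    have h0 : Filter.Tendsto (fun k => Real.sqrt (nsq F (fun g => conv F f (x k).fn g - ψ g)))
        Filter.atTop (nhds 0) := by
      have := (Real.continuous_sqrt.tendsto 0).comp hlim
      rw [Real.sqrt_zero] at this
      exact this
    refine h0.congr (fun k => ?_)
    rw [hnorm, coe_sub566]
    rfl
  have h7 : ∀ x : CuspV566 hFD 𝔫, ∀ ε : ℝ, 0 < ε → ∃ A ∈ 𝒞, ‖A x - x‖ < ε := by
    intro x ε hε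
    obtain ⟨f, hf, -, hlt⟩ := hAI F x.fn x.isCuspFn (ε ^ 2) (by positivity)
    refine ⟨opLin566 hFD 𝔫 F hOG (conv F f) (IsOp.conv f hf), ⟨f, hf, rfl⟩, ?_⟩
    rw [hnorm, coe_sub566]
    have : Real.sqrt (nsq F (fun g => conv F f x.fn g - x.fn g)) < Real.sqrt (ε ^ 2) :=
      Real.sqrt_lt_sqrt (nsq_nonneg566 F _) hlt
    rw [Real.sqrt_sq hε.le] at this
    exact this
  obtain ⟨ι, e, he_on, he_eig, he_par⟩ := hAS (CuspV566 hFD 𝔫) 𝒜 𝒞 h1 h2 h3 h4 h5 h6 h7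
  classical
  refine ⟨ι, fun j => (e j).fn, fun j => (e j).isCuspFn, fun j => ?_, fun i j hij => ?_,
    fun T hT j => ?_, fun φ hφ => ?_⟩
  · have := orthonormal_iff_ite.1 he_on j j
    rw [hinner] at this
    simpa using this
  · have := orthonormal_iff_ite.1 he_on j i
    rw [hinner] at this
    simpa [Ne.symm hij] using this
  · obtain ⟨c, hc⟩ := he_eig (opLin566 hFD 𝔫 F hOG T hT) ⟨T, hT, rfl⟩ j
    exact ⟨c, congrArg CuspV566.fn hc⟩
  · have := he_par (CuspV566.mk φ hφ)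
    rw [hnorm, Real.sq_sqrt (nsq_nonneg566 F _)] at this
    simp only [hinner] at this
    exact this

end Main

end Fermat.Agent.LT.T2.H566

end
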