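import Mathlib
import Fermat.Agent.LT.T2.Spec
import Fermat.Agent.LT.T2.H566.JointEig
import Fermat.Agent.LT.T2.H566.HeckeIndep

/-!
# Row LT, tower T2, leaf T2.09 (helper566): ASSEMBLY, `leaf09_566 : T2.Leaf09 K`

OFF-MAIN.  From the joint eigenbasis `exists_jointEig566` (abstract spectral theorem applied to
the pre-Hilbert space of cusp functions) to `T2.CuspSpec K 𝔫`:

* the Hecke eigenvalue does not depend on the coset system, the shift eigenvalue does not depend
  on the scalar uniformiser (`heckeSum_indep566`, `shift_indep566`);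
* the sphere (circle) of radius `d` at `w` has at most one parametrisation
  (`isSphereAt_unique566`, `isCircleAt_unique566`);
* `‖b‖ = 1` from `OpsAdj` (the shift is an isometry), `conj a = a conj b` from `OpsAdj`
  (`T_H* = S_z⁻¹ T_H`), `√q ‖a‖ ≤ q + 1` from the boundedness of the eigenfunction, the sphere and
  circle eigenvalues are real by `OpsAdj`.
-/

set_option autoImplicit false
set_option linter.unusedSectionVars false
set_option linter.style.haveILetI false

open IsDedekindDomain NumberField MeasureTheory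
open Fermat.Agent.LT.H556.A0 Fermat.Agent.LT Fermat.Agent.LT.T2
open scoped ComplexConjugate

noncomputable section

namespace Fermat.Agent.LT.T2.H566

variable {K : Type} [Field K] [NumberField K]

attribute [local instance] Fermat.Agent.LT.T2.borelG

section One

variable (𝔫 : Ideal (𝓞 K)) (F : Frame K) {e : G K → ℂ}

/-- A function of norm one does not vanish identically. -/
theorem exists_ne_zero566 (h1 : pair F e e = 1) : ∃ g : G K, e g ≠ 0 := by
  by_contra hcon
  push Not at hcon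
  have : pair F e e = 0 := by
    unfold pair
    simp [hcon]
  rw [this] at h1
  exact zero_ne_one h1

/-- The eigenvalue of a self-adjoint operator on a vector of norm one is real. -/
theorem im_eq_zero_of_selfAdj566 (h1 : pair F e e = 1) {T : (G K → ℂ) → (G K → ℂ)} {c : ℂ}
    (hc : T e = c • e) (hsa : pair F (T e) e = pair F e (T e)) : c.im = 0 := by
  rw [hc, pair_smul_left566, pair_smul_right566, h1, mul_one, mul_one] at hsa
  exact Complex.conj_eq_iff_im.1 hsa.symm

/-- The bound of an eigenvalue of a finite sum of translations on a bounded function. -/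
theorem norm_le_card_of_sum566 (hb : ∃ C : ℝ, ∀ g : G K, ‖e g‖ ≤ C) (hne : ∃ g : G K, e g ≠ 0)
    (H : Finset (G K)) {c : ℂ} (hc : ∀ g : G K, ∑ h ∈ H, e (g * h) = c * e g) :
    ‖c‖ ≤ (H.card : ℝ) := by
  obtain ⟨C, hC⟩ := hb
  obtain ⟨g₀, hg₀⟩ := hne
  have hbdd : BddAbove (Set.range fun g : G K => ‖e g‖) := ⟨C, by
    rintro _ ⟨g, rfl⟩
    exact hC g⟩
  set M : ℝ := ⨆ g : G K, ‖e g‖ with hM
  have hle : ∀ g : G K, ‖e g‖ ≤ M := fun g => le_ciSup hbdd g
  have hMpos : 0 < M := lt_of_lt_of_le (norm_pos_iff.2 hg₀) (hle g₀)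
  have hkey : ∀ g : G K, ‖c‖ * ‖e g‖ ≤ (H.card : ℝ) * M := by
    intro g
    rw [← norm_mul, ← hc g]
    calc ‖∑ h ∈ H, e (g * h)‖ ≤ ∑ h ∈ H, ‖e (g * h)‖ := norm_sum_le _ _
      _ ≤ ∑ _h ∈ H, M := Finset.sum_le_sum fun h _ => hle (g * h)
      _ = (H.card : ℝ) * M := by rw [Finset.sum_const, nsmul_eq_mul]
  by_contra hcon
  push Not at hcon
  have hcpos : 0 < ‖c‖ := lt_of_le_of_lt (Nat.cast_nonneg _) hcon
  have hM2 : M ≤ (H.card : ℝ) * M / ‖c‖ := by
    refine ciSup_le fun g => ?_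
    rw [le_div_iff₀ hcpos, mul_comm]
    exact hkey g
  rw [le_div_iff₀ hcpos] at hM2
  have : ‖c‖ ≤ (H.card : ℝ) := by
    have h3 : M * ‖c‖ ≤ M * (H.card : ℝ) := by
      rw [mul_comm M (H.card : ℝ)]
      exact hM2
    exact le_of_mul_le_mul_left h3 hMpos
  exact absurd this (not_le.2 hcon)

end One

section Pack

variable (hHC : T1.HeckeCosetC K) (𝔫 : Ideal (𝓞 K)) (F : Frame K) (hOA : OpsAdj K 𝔫)
  {e : G K → ℂ} (he : IsCuspFn 𝔫 e) (h1 : pair F e e = 1)
  (heig : ∀ T, IsOp 𝔫 F T → ∃ c : ℂ, T e = c • e)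

include hHC hOA he h1 heig in
/-- The Hecke data of a joint eigenfunction at a place prime to the level. -/
theorem hecke_pack566 (v : HeightOneSpectrum (𝓞 K)) (hv : ¬ v.asIdeal ∣ 𝔫) :
    ∃ a b : ℂ, IsHeckeEigenAt e v a b ∧ ‖b‖ = 1 ∧ conj a = a * conj b ∧
      ‖a‖ * Real.sqrt (Ideal.absNorm v.asIdeal : ℝ) ≤ (Ideal.absNorm v.asIdeal : ℝ) + 1 := by
  obtain ⟨⟨H₀, hH₀⟩, -, ⟨z₀, hz₀⟩⟩ := hHC v
  obtain ⟨cH, hcH⟩ := heig (heckeSum H₀) (IsOp.hecke v hv H₀ hH₀)
  obtain ⟨cz, hcz⟩ := heig (shift z₀) (IsOp.shift v hv z₀ hz₀)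
  have hq0 : (Ideal.absNorm v.asIdeal : ℝ) ≠ 0 := by
    have : Ideal.absNorm v.asIdeal ≠ 0 := fun h => v.ne_bot (Ideal.absNorm_eq_zero_iff.1 h)
    exact_mod_cast this
  have hqpos : 0 < (Ideal.absNorm v.asIdeal : ℝ) :=
    lt_of_le_of_ne (Nat.cast_nonneg _) (Ne.symm hq0)
  set sq : ℝ := Real.sqrt (Ideal.absNorm v.asIdeal : ℝ) with hsq
  have hsqpos : 0 < sq := Real.sqrt_pos.2 hqpos
  have hsq0 : (sq : ℂ) ≠ 0 := Complex.ofReal_ne_zero.2 hsqpos.ne'
  -- pointwise forms
  have hHpt : ∀ g : G K, ∑ h ∈ H₀, e (g * h) = cH * e g := fun g => congrFun hcH g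
  have hzpt : ∀ g : G K, e (g * z₀) = cz * e g := fun g => congrFun hcz g
  -- the shift is unitary
  have hczcz : cz * conj cz = 1 := by
    have := (hOA F).1 v hv z₀ hz₀ e e he he
    rw [hcz, pair_smul_left566, pair_smul_right566, h1, mul_one] at this
    exact this
  have hcz0 : cz ≠ 0 := by
    intro h
    rw [h, zero_mul] at hczcz
    exact zero_ne_one hczcz
  have hnorm : ‖cz‖ = 1 := by
    have h2 : ((Complex.normSq cz : ℝ) : ℂ) = 1 := by
      rw [← Complex.mul_conj]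
      exact hczcz
    have h3 : Complex.normSq cz = 1 := by exact_mod_cast h2
    rw [Complex.normSq_eq_norm_sq] at h3
    have h4 : ‖cz‖ ^ 2 = 1 ^ 2 := by rw [h3, one_pow]
    exact (pow_left_inj₀ (norm_nonneg _) zero_le_one (by norm_num)).1 h4
  -- the inverse shift
  have hzinv : ∀ g : G K, e (g * z₀⁻¹) = cz⁻¹ * e g := by
    intro g
    have := hzpt (g * z₀⁻¹)
    rw [inv_mul_cancel_right] at this
    rw [this, ← mul_assoc, inv_mul_cancel₀ hcz0, one_mul]
  -- the adjoint of the Hecke sum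
  have hadj : cH = conj cH * cz := by
    have := (hOA F).2.1 v hv H₀ z₀ hH₀ hz₀ e e he he
    have e2 : shift z₀⁻¹ (heckeSum H₀ e) = (cH * cz⁻¹) • e := by
      rw [hcH]
      funext g
      simp only [shift, Pi.smul_apply, smul_eq_mul]
      rw [hzinv g, mul_assoc]
    rw [e2, hcH, pair_smul_left566, pair_smul_right566, h1, mul_one, mul_one, map_mul,
      map_inv₀] at this
    have h5 : (conj cz)⁻¹ = cz := (eq_inv_of_mul_eq_one_left hczcz).symm
    rw [h5] at this
    exact this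
  refine ⟨cH / (sq : ℂ), cz, ⟨?_, ?_⟩, hnorm, ?_, ?_⟩
  · intro H hH g
    have hind : heckeSum H e = heckeSum H₀ e :=
      heckeSum_indep566 hHC 𝔫 v hv hH₀ hH he.level_inv
    have := congrFun hind g
    simp only [heckeSum] at this
    rw [this, hHpt g, mul_div_cancel₀ _ hsq0]
  · intro z hz g
    have hind : shift z e = shift z₀ e := shift_indep566 𝔫 v hv hz₀ hz he.level_inv
    have := congrFun hind g
    simp only [shift] at this
    rw [this, hzpt g]
  · rw [map_div₀, Complex.conj_ofReal]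
    have h6 : conj cH = cH * conj cz := by
      conv_rhs => rw [hadj]
      rw [mul_assoc, hczcz, mul_one]
    rw [h6]
    ring
  · rw [norm_div, Complex.norm_real, Real.norm_of_nonneg hsqpos.le,
      div_mul_cancel₀ _ hsqpos.ne']
    have hb := norm_le_card_of_sum566 he.bdd (exists_ne_zero566 F h1) H₀ hHpt
    rw [hH₀.1] at hb
    push_cast at hb
    exact hb

include hOA he h1 heig in
/-- The archimedean data of a joint eigenfunction. -/
theorem mean_pack566 (w : InfinitePlace K) (d : ℝ) :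
    ∃ c : ℂ, c.im = 0 ∧
      (w.IsComplex → 0 < d → ∀ Y : ℝ → ℝ → G K, IsSphereAt w d Y →
        ∀ g : G K, sphereMean Y e g = c * e g) ∧
      (w.IsReal → 0 < d → ∀ Y : ℝ → G K, IsCircleAt w d Y →
        ∀ g : G K, circleMean Y e g = c * e g) := by
  by_cases hd : 0 < d
  · by_cases hw : w.IsComplex
    · have hnr : ¬ w.IsReal := InfinitePlace.not_isReal_iff_isComplex.2 hw
      by_cases hex : ∃ Y : ℝ → ℝ → G K, IsSphereAt w d Y
      · obtain ⟨Y₀, hY₀⟩ := hex
        obtain ⟨c, hc⟩ := heig (sphereMean Y₀) (IsOp.sphere w hw d hd Y₀ hY₀)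
        refine ⟨c, ?_, fun _ _ Y hY g => ?_, fun h => absurd h hnr⟩
        · exact im_eq_zero_of_selfAdj566 F h1 hc ((hOA F).2.2.1 w hw d hd Y₀ hY₀ e e he he)
        · rw [isSphereAt_unique566 hY₀ hY, hc]
          rfl
      · exact ⟨0, rfl, fun _ _ Y hY => absurd ⟨Y, hY⟩ hex, fun h => absurd h hnr⟩
    · have hr : w.IsReal := InfinitePlace.not_isComplex_iff_isReal.1 hw
      by_cases hex : ∃ Y : ℝ → G K, IsCircleAt w d Y
      · obtain ⟨Y₀, hY₀⟩ := hex
        obtain ⟨c, hc⟩ := heig (circleMean Y₀) (IsOp.circle w hr d hd Y₀ hY₀)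
        refine ⟨c, ?_, fun h => absurd h hw, fun _ _ Y hY g => ?_⟩
        · exact im_eq_zero_of_selfAdj566 F h1 hc ((hOA F).2.2.2 w hr d hd Y₀ hY₀ e e he he)
        · rw [isCircleAt_unique566 hY₀ hY, hc]
          rfl
      · exact ⟨0, rfl, fun h => absurd h hw, fun _ _ Y hY => absurd ⟨Y, hY⟩ hex⟩
  · exact ⟨0, rfl, fun _ h => absurd h hd, fun _ h => absurd h hd⟩

end Pack

/-- **Leaf T2.09** (assembly): the discreteness of the cuspidal spectrum, eigenfunction form, from
the abstract spectral theorem and the milestones of the tower. -/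
theorem leaf09_566 : Leaf09 K := by
  intro hT1 hAS 𝔫 _ hPD _ hHS hCR hAI hOG hOA F
  obtain ⟨ι, e, hcusp, hone, horth, heig, hpar⟩ :=
    exists_jointEig566 hT1.addFundDom 𝔫 F hPD hAS hHS hCR hAI hOG
  have hH : ∀ (j : ι) (v : HeightOneSpectrum (𝓞 K)), ∃ ab : ℂ × ℂ, ¬ v.asIdeal ∣ 𝔫 →
      (IsHeckeEigenAt (e j) v ab.1 ab.2 ∧ ‖ab.2‖ = 1 ∧ conj ab.1 = ab.1 * conj ab.2 ∧
        ‖ab.1‖ * Real.sqrt (Ideal.absNorm v.asIdeal : ℝ)
          ≤ (Ideal.absNorm v.asIdeal : ℝ) + 1) := by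
    intro j v
    by_cases hv : ¬ v.asIdeal ∣ 𝔫
    · obtain ⟨a, b, h⟩ := hecke_pack566 hT1.heckeCoset 𝔫 F hOA (hcusp j) (hone j)
        (fun T hT => heig T hT j) v hv
      exact ⟨(a, b), fun _ => h⟩
    · exact ⟨(0, 0), fun h => absurd h hv⟩
  choose ab hab using hH
  have hM : ∀ (j : ι) (w : InfinitePlace K) (d : ℝ), ∃ c : ℂ, c.im = 0 ∧
      (w.IsComplex → 0 < d → ∀ Y : ℝ → ℝ → G K, IsSphereAt w d Y →
        ∀ g : G K, sphereMean Y (e j) g = c * e j g) ∧
      (w.IsReal → 0 < d → ∀ Y : ℝ → G K, IsCircleAt w d Y →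
        ∀ g : G K, circleMean Y (e j) g = c * e j g) := fun j w d =>
    mean_pack566 𝔫 F hOA (hcusp j) (hone j) (fun T hT => heig T hT j) w d
  choose m hm using hM
  refine ⟨ι, e, m, fun j v => (ab j v).1, fun j v => (ab j v).2, ?_⟩
  exact
    { cusp := hcusp
      norm_one := hone
      orth := horth
      eig_complex := fun j w hw d hd Y hY g => (hm j w d).2.1 hw hd Y hY g
      eig_real := fun j w hw d hd Y hY g => (hm j w d).2.2 hw hd Y hY g
      hecke := fun j v hv => (hab j v hv).1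
      unit_b := fun j v hv => (hab j v hv).2.1
      conj_a := fun j v hv => (hab j v hv).2.2.1
      bound_a := fun j v hv => (hab j v hv).2.2.2
      real_m := fun j w d _ => (hm j w d).1
      parseval := hpar }

end Fermat.Agent.LT.T2.H566

end
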