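import Mathlib
import Fermat.Agent.LT.T2.H429.OpsSpec
import Fermat.Agent.LT.T2.H429.Loc
import Fermat.Agent.LT.T2.H472.LocCont
import Fermat.Agent.LT.T2.H566.CuspSub

/-!
# Row LT, tower T2, sub-leaf T2.07.12 `SubSpherePres429` (helper566, SPARE of row 1007)

OFF-MAIN.  The sphere means at a complex place preserve the cusp functions:
`subSpherePres566 : SubS2Rot429 → SubSpherePres429 K`.

* continuity: parametric interval integrals of a jointly continuous function (`Y` is continuous
  by `H472.locCont472`);
* invariance under `U(𝔫)`, under the positive scalars and under the compact groups at the other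
  places: the elements commute with `Y α β` (`H429/Loc.lean`);
* invariance under `U(2)` at the place of the mean: `SubS2Rot429` applied to
  `ψ(m) = φ(g · loc_w(m))`, where `loc_w : GL₂(ℂ) → GL₂(𝔸_K)` is the local embedding at the
  complex place `w` (`locC566`);
* cuspidality: Fubini on `D × (0, 2π] × (0, π]` (`μ D < ∞` by `T1.AddFundDomC`).

Imports (byte-identical copies): `LT/T2/H429/{OpsSpec (6efb177a), Loc (e54337bf)}.lean`
(helper429), `LT/T2/H472/LocCont.lean` (helper472, 407bf890), `LT/H129/{Comp, Local}.lean`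
(helper129), `LT/T1/H793/AdeleProj.lean` (helper793).
-/

set_option autoImplicit false
set_option linter.unusedSectionVars false
set_option linter.style.haveILetI false

open IsDedekindDomain NumberField MeasureTheory
open Fermat.Agent.LT.H556.A0 Fermat.Agent.LT
open Fermat.Agent.LT.T2 Fermat.Agent.LT.T2.H429 Fermat.Agent.LT.T2.H472
open scoped ComplexConjugate

noncomputable section

namespace Fermat.Agent.LT.T2.H566

open NumberField.InfinitePlace

variable {K : Type} [Field K] [NumberField K]

/-! ## Continuity of the parametrisation -/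

theorem continuous_rotZ566 : Continuous rotZ := by
  refine continuous_matrix fun i j => ?_
  fin_cases i <;> fin_cases j
  · show Continuous fun α : ℝ => Complex.exp (Complex.I * ((α / 2 : ℝ) : ℂ))
    fun_prop
  · exact continuous_const
  · exact continuous_const
  · show Continuous fun α : ℝ => Complex.exp (-(Complex.I * ((α / 2 : ℝ) : ℂ)))
    fun_prop

theorem continuous_rotY566 : Continuous rotY := by
  refine continuous_matrix fun i j => ?_
  fin_cases i <;> fin_cases j
  · show Continuous fun β : ℝ => ((Real.cos (β / 2) : ℝ) : ℂ)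
    fun_prop
  · show Continuous fun β : ℝ => -((Real.sin (β / 2) : ℝ) : ℂ)
    fun_prop
  · show Continuous fun β : ℝ => ((Real.sin (β / 2) : ℝ) : ℂ)
    fun_prop
  · show Continuous fun β : ℝ => ((Real.cos (β / 2) : ℝ) : ℂ)
    fun_prop

/-- The parametrisation of a sphere is jointly continuous. -/
theorem continuous_sphere566 (w : InfinitePlace K) (d : ℝ) (Y : ℝ → ℝ → G K)
    (hY : IsSphereAt w d Y) : Continuous fun p : ℝ × ℝ => Y p.1 p.2 := by
  refine locCont472 K w (ℝ × ℝ) (fun p => Y p.1 p.2) (fun p => (hY p.1 p.2).1) fun i j => ?_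
  have h : (fun p : ℝ × ℝ => infComp w (Y p.1 p.2) i j)
      = fun p : ℝ × ℝ => (rotZ p.1 * rotY p.2 * torus d) i j :=
    funext fun p => by rw [(hY p.1 p.2).2]
  rw [h]
  exact ((((continuous_rotZ566.comp continuous_fst).matrix_mul
    (continuous_rotY566.comp continuous_snd)).matrix_mul continuous_const)).matrix_elem i j

/-! ## The local embedding of `GL₂(ℂ)` at a complex place -/

/-- The element of `GL₂(K_w)` with the given complex matrix, `w` a complex place. -/
def glOfMat566 (w : InfinitePlace K) (hw : w.IsComplex) (m : Matrix (Fin 2) (Fin 2) ℂ)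
    (h : m.det ≠ 0) : GL (Fin 2) w.Completion :=
  Matrix.GeneralLinearGroup.mkOfDetNeZero
    (m.map (Completion.ringEquivComplexOfIsComplex hw).symm) (by
      have e : (m.map (Completion.ringEquivComplexOfIsComplex hw).symm).det
          = (Completion.ringEquivComplexOfIsComplex hw).symm m.det := by
        rw [Matrix.det_fin_two, Matrix.det_fin_two]
        simp only [Matrix.map_apply, map_sub, map_mul]
      rw [e]
      intro h0
      exact h ((Completion.ringEquivComplexOfIsComplex hw).symm.injective
        (h0.trans (map_zero _).symm)))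

/-- The element of `GL₂(𝔸_K)` supported at the complex place `w` with the given matrix. -/
def locC566 (w : InfinitePlace K) (hw : w.IsComplex) (m : Matrix (Fin 2) (Fin 2) ℂ)
    (h : m.det ≠ 0) : G K :=
  locInf429 w (glOfMat566 w hw m h)

theorem isLocalAtInf_locC566 (w : InfinitePlace K) (hw : w.IsComplex)
    (m : Matrix (Fin 2) (Fin 2) ℂ) (h : m.det ≠ 0) : IsLocalAtInf w (locC566 w hw m h) :=
  isLocalAtInf_locInf429 w _

theorem infComp_locC566 (w : InfinitePlace K) (hw : w.IsComplex)
    (m : Matrix (Fin 2) (Fin 2) ℂ) (h : m.det ≠ 0) : infComp w (locC566 w hw m h) = m := by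
  unfold locC566
  rw [infComp_locInf429]
  ext i j
  show Completion.extensionEmbedding w ((Completion.ringEquivComplexOfIsComplex hw).symm (m i j))
    = m i j
  rw [← Completion.ringEquivComplexOfIsComplex_apply hw]
  exact RingEquiv.apply_symm_apply _ _

/-- A local element at the complex place `w` is the local embedding of its matrix. -/
theorem eq_locC566 (w : InfinitePlace K) (hw : w.IsComplex) {g : G K} (hg : IsLocalAtInf w g)
    {m : Matrix (Fin 2) (Fin 2) ℂ} (h : m.det ≠ 0) (e : infComp w g = m) :
    g = locC566 w hw m h :=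
  eq_of_isLocalAtInf429 hg (isLocalAtInf_locC566 w hw m h)
    (e.trans (infComp_locC566 w hw m h).symm)

theorem locC_mul566 (w : InfinitePlace K) (hw : w.IsComplex)
    (m k : Matrix (Fin 2) (Fin 2) ℂ) (hm : m.det ≠ 0) (hk : k.det ≠ 0) (hmk : (m * k).det ≠ 0) :
    locC566 w hw (m * k) hmk = locC566 w hw m hm * locC566 w hw k hk := by
  symm
  refine eq_locC566 w hw
    (isLocalAtInf_mul429 (isLocalAtInf_locC566 w hw m hm) (isLocalAtInf_locC566 w hw k hk)) hmk ?_
  rw [infComp_mul429, infComp_locC566, infComp_locC566]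

/-- The local embedding is continuous on the invertible matrices. -/
theorem continuous_locC566 (w : InfinitePlace K) (hw : w.IsComplex) :
    Continuous fun m : {m : Matrix (Fin 2) (Fin 2) ℂ // m.det ≠ 0} =>
      locC566 w hw m.1 m.2 := by
  refine locCont472 K w _ _ (fun m => isLocalAtInf_locC566 w hw m.1 m.2) fun i j => ?_
  have h : (fun m : {m : Matrix (Fin 2) (Fin 2) ℂ // m.det ≠ 0} =>
      infComp w (locC566 w hw m.1 m.2) i j) = fun m => m.1 i j :=
    funext fun m => by rw [infComp_locC566]
  rw [h]
  exact (continuous_subtype_val.matrix_elem i j)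

theorem det_ne_zero_of_unitary566 {k : Matrix (Fin 2) (Fin 2) ℂ}
    (hk : k * k.conjTranspose = 1) : k.det ≠ 0 := by
  intro h0
  have := congrArg Matrix.det hk
  rw [Matrix.det_mul, h0, zero_mul, Matrix.det_one] at this
  exact zero_ne_one this

/-! ## The invariance under `U(2)` at the place of the mean -/

/-- The function on `M₂(ℂ)` to which `SubS2Rot429` is applied. -/
def psiC566 (w : InfinitePlace K) (hw : w.IsComplex) (φ : G K → ℂ) (g : G K) :
    Matrix (Fin 2) (Fin 2) ℂ → ℂ :=
  fun m => if h : m.det ≠ 0 then φ (g * locC566 w hw m h) else 0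

theorem psiC_of_local566 (w : InfinitePlace K) (hw : w.IsComplex) (φ : G K → ℂ) (g : G K)
    {y : G K} (hy : IsLocalAtInf w y) : psiC566 w hw φ g (infComp w y) = φ (g * y) := by
  have hdet : (infComp w y).det ≠ 0 := det_infComp_ne_zero472 w y
  unfold psiC566
  rw [dif_pos hdet, ← eq_locC566 w hw hy hdet rfl]

theorem continuousOn_psiC566 (w : InfinitePlace K) (hw : w.IsComplex) {φ : G K → ℂ}
    (hφ : Continuous φ) (g : G K) :
    ContinuousOn (psiC566 w hw φ g) {m | m.det ≠ 0} := by
  rw [continuousOn_iff_continuous_domRestrict]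
  have h : Set.domRestrict {m : Matrix (Fin 2) (Fin 2) ℂ | m.det ≠ 0} (psiC566 w hw φ g)
      = fun m : {m : Matrix (Fin 2) (Fin 2) ℂ // m.det ≠ 0} =>
        φ (g * locC566 w hw m.1 m.2) := by
    funext m
    exact dif_pos m.2
  rw [h]
  exact hφ.comp (continuous_const.mul (continuous_locC566 w hw))

theorem psiC_right_inv566 (w : InfinitePlace K) (hw : w.IsComplex) {φ : G K → ℂ}
    (hinv : ∀ (w : InfinitePlace K) (k : G K), IsArchCompact w k → ∀ g : G K, φ (g * k) = φ g)
    (g : G K) (m k : Matrix (Fin 2) (Fin 2) ℂ) (hk : k * k.conjTranspose = 1) :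
    psiC566 w hw φ g (m * k) = psiC566 w hw φ g m := by
  have hkdet : k.det ≠ 0 := det_ne_zero_of_unitary566 hk
  by_cases hm : m.det ≠ 0
  · have hmk : (m * k).det ≠ 0 := by
      rw [Matrix.det_mul]
      exact mul_ne_zero hm hkdet
    unfold psiC566
    rw [dif_pos hmk, dif_pos hm, locC_mul566 w hw m k hm hkdet hmk, ← mul_assoc]
    refine hinv w _ ⟨isLocalAtInf_locC566 w hw k hkdet, ?_, fun hr => ?_⟩ _
    · rw [infComp_locC566]
      exact hk
    · exact absurd hr (not_isReal_iff_isComplex.2 hw)
  · have hmk : ¬ (m * k).det ≠ 0 := by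
      rw [Matrix.det_mul]
      push Not at hm ⊢
      rw [hm, zero_mul]
    unfold psiC566
    rw [dif_neg hmk, dif_neg hm]

/-! ## The sub-leaf -/

/-- **T2.07.12 `SubSpherePres429`** from `SubS2Rot429` (T2.07.31). -/
theorem subSpherePres566 (K : Type) [Field K] [NumberField K] (hS2 : SubS2Rot429) :
    SubSpherePres429 K := by
  intro 𝔫 c w hw d _ Y hY φ hφ
  have hYc : Continuous fun p : ℝ × ℝ => Y p.1 p.2 := continuous_sphere566 w d Y hY
  have hsin : Continuous fun β : ℝ => ((Real.sin β : ℝ) : ℂ) := by fun_prop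
  obtain ⟨C, hC⟩ := hφ.bdd
  have hC0 : 0 ≤ C := (norm_nonneg _).trans (hC 1)
  -- the inner integral is jointly continuous
  have hinner : ∀ {X : Type} [TopologicalSpace X] (a : X → G K), Continuous a →
      Continuous fun p : X × ℝ => ∫ β in (0 : ℝ)..Real.pi,
        φ (a p.1 * Y p.2 β) * ((Real.sin β : ℝ) : ℂ) := by
    intro X _ a ha
    have hf : Continuous (Function.uncurry fun (p : X × ℝ) (β : ℝ) =>
        φ (a p.1 * Y p.2 β) * ((Real.sin β : ℝ) : ℂ)) := by
      refine (hφ.cont.comp ?_).mul (hsin.comp continuous_snd)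
      refine (ha.comp (continuous_fst.comp continuous_fst)).mul ?_
      exact hYc.comp ((continuous_snd.comp continuous_fst).prodMk continuous_snd)
    exact intervalIntegral.continuous_parametric_intervalIntegral_of_continuous' hf 0 Real.pi
  have hinner_bd : ∀ (g : G K) (α : ℝ), ‖∫ β in (0 : ℝ)..Real.pi,
      φ (g * Y α β) * ((Real.sin β : ℝ) : ℂ)‖ ≤ C * |Real.pi - 0| := by
    intro g α
    refine intervalIntegral.norm_integral_le_of_norm_le_const fun β _ => ?_
    rw [norm_mul, Complex.norm_real]
    calc ‖φ (g * Y α β)‖ * ‖Real.sin β‖ ≤ C * 1 :=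
          mul_le_mul (hC _) (by rw [Real.norm_eq_abs]; exact Real.abs_sin_le_one β)
            (norm_nonneg _) hC0
      _ = C := mul_one C
  refine ⟨?_, ?_, ?_, ?_, ?_, ?_, ?_⟩
  · -- continuity
    have h2 : Continuous (Function.uncurry fun (g : G K) (α : ℝ) =>
        ∫ β in (0 : ℝ)..Real.pi, φ (g * Y α β) * ((Real.sin β : ℝ) : ℂ)) :=
      hinner (fun g : G K => g) continuous_id
    exact intervalIntegral.continuous_parametric_intervalIntegral_of_continuous' h2 0
      (2 * Real.pi)
  · -- boundedness
    refine ⟨C * |Real.pi - 0| * |2 * Real.pi - 0|, fun g => ?_⟩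
    exact intervalIntegral.norm_integral_le_of_norm_le_const fun α _ => hinner_bd g α
  · -- left invariance
    intro γ g
    show (∫ α in (0 : ℝ)..(2 * Real.pi), ∫ β in (0 : ℝ)..Real.pi,
        φ (Matrix.GeneralLinearGroup.map (algebraMap K (Adl K)) γ * g * Y α β)
          * ((Real.sin β : ℝ) : ℂ))
      = ∫ α in (0 : ℝ)..(2 * Real.pi), ∫ β in (0 : ℝ)..Real.pi,
        φ (g * Y α β) * ((Real.sin β : ℝ) : ℂ)
    congr 1
    funext α
    congr 1
    funext β
    rw [mul_assoc, hφ.left_inv γ _]
  · -- level
    intro u hu g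
    show (∫ α in (0 : ℝ)..(2 * Real.pi), ∫ β in (0 : ℝ)..Real.pi,
        φ (g * u * Y α β) * ((Real.sin β : ℝ) : ℂ))
      = ∫ α in (0 : ℝ)..(2 * Real.pi), ∫ β in (0 : ℝ)..Real.pi,
        φ (g * Y α β) * ((Real.sin β : ℝ) : ℂ)
    congr 1
    funext α
    congr 1
    funext β
    rw [mul_assoc, commute_level_inf429 hu (hY α β).1, ← mul_assoc, hφ.level_inv u hu _]
  · -- positive scalars
    intro w' z hz g
    show (∫ α in (0 : ℝ)..(2 * Real.pi), ∫ β in (0 : ℝ)..Real.pi,
        φ (g * z * Y α β) * ((Real.sin β : ℝ) : ℂ))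
      = ∫ α in (0 : ℝ)..(2 * Real.pi), ∫ β in (0 : ℝ)..Real.pi,
        φ (g * Y α β) * ((Real.sin β : ℝ) : ℂ)
    congr 1
    funext α
    congr 1
    funext β
    have hcomm : z * Y α β = Y α β * z := by
      by_cases h : w' = w
      · subst h
        obtain ⟨r, -, hr⟩ := hz.2
        refine eq_of_isLocalAtInf429 (isLocalAtInf_mul429 hz.1 (hY α β).1)
          (isLocalAtInf_mul429 (hY α β).1 hz.1) ?_
        rw [infComp_mul429, infComp_mul429, hr]
        ext i j
        simp [Matrix.mul_apply, Matrix.diagonal_apply, mul_comm]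
      · exact commute_inf_inf429 h hz.1 (hY α β).1
    rw [mul_assoc, hcomm, ← mul_assoc, hφ.arch_scalar w' z hz _]
  · -- compact groups
    intro w' k hk g
    show (∫ α in (0 : ℝ)..(2 * Real.pi), ∫ β in (0 : ℝ)..Real.pi,
        φ (g * k * Y α β) * ((Real.sin β : ℝ) : ℂ))
      = ∫ α in (0 : ℝ)..(2 * Real.pi), ∫ β in (0 : ℝ)..Real.pi,
        φ (g * Y α β) * ((Real.sin β : ℝ) : ℂ)
    by_cases h : w' = w
    · subst h
      have key := hS2 (psiC566 w' hw φ g) (continuousOn_psiC566 w' hw hφ.cont g)
        (psiC_right_inv566 w' hw hφ.arch_compact g) (infComp w' k) hk.2.1 d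
      have e1 : ∀ α β : ℝ, psiC566 w' hw φ g (infComp w' k * (rotZ α * rotY β * torus d))
          = φ (g * k * Y α β) := by
        intro α β
        have := psiC_of_local566 w' hw φ g (isLocalAtInf_mul429 hk.1 (hY α β).1)
        rw [infComp_mul429, (hY α β).2, ← mul_assoc g] at this
        exact this
      have e2 : ∀ α β : ℝ, psiC566 w' hw φ g (rotZ α * rotY β * torus d)
          = φ (g * Y α β) := by
        intro α β
        have := psiC_of_local566 w' hw φ g (hY α β).1
        rw [(hY α β).2] at this
        exact this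
      simp only [e1, e2] at key
      exact key
    · congr 1
      funext α
      congr 1
      funext β
      rw [mul_assoc, commute_inf_inf429 h hk.1 (hY α β).1, ← mul_assoc,
        hφ.arch_compact w' k hk _]
  · -- cuspidality
    letI : MeasurableSpace (Adl K) := borel (Adl K)
    haveI : BorelSpace (Adl K) := ⟨rfl⟩
    intro μ hμ D hD n hn g
    haveI := hμ
    have hDfin : μ D < ⊤ := measure_fundDom_lt_top566 c.t1.addFundDom μ hμ D hD
    haveI : IsFiniteMeasure (μ.restrict D) := ⟨by rwa [Measure.restrict_apply_univ]⟩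
    have hnc : Continuous n := continuous_unip566 n hn
    -- first swap: `x` and `α`
    set F : Adl K → ℝ → ℂ := fun x α =>
      ∫ β in (0 : ℝ)..Real.pi, φ (n x * g * Y α β) * ((Real.sin β : ℝ) : ℂ) with hF
    have hFc : Continuous (Function.uncurry F) :=
      hinner (fun x : Adl K => n x * g) (hnc.mul continuous_const)
    have hFint : Integrable (Function.uncurry F)
        ((μ.restrict D).prod (volume.restrict (Set.Ioc (0 : ℝ) (2 * Real.pi)))) :=
      Integrable.mono' (g := fun _ => C * |Real.pi - 0|) (integrable_const _)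
        hFc.aestronglyMeasurable (Filter.Eventually.of_forall fun p => hinner_bd _ _)
    have h1 : ∀ x : Adl K, sphereMean Y φ (n x * g)
        = ∫ α in Set.Ioc (0 : ℝ) (2 * Real.pi), F x α := fun x =>
      intervalIntegral.integral_of_le (by positivity)
    show ∫ x in D, sphereMean Y φ (n x * g) ∂μ = 0
    simp only [h1]
    rw [integral_integral_swap hFint]
    -- second swap: `x` and `β`, for every `α`
    have h2 : ∀ α : ℝ, ∫ x in D, F x α ∂μ = 0 := by
      intro α
      set f : Adl K → ℝ → ℂ := fun x β => φ (n x * g * Y α β) * ((Real.sin β : ℝ) : ℂ)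
        with hf
      have hfc : Continuous (Function.uncurry f) := by
        refine (hφ.cont.comp ?_).mul (hsin.comp continuous_snd)
        refine ((hnc.comp continuous_fst).mul continuous_const).mul ?_
        exact hYc.comp (continuous_const.prodMk continuous_snd)
      have hfint : Integrable (Function.uncurry f)
          ((μ.restrict D).prod (volume.restrict (Set.Ioc (0 : ℝ) Real.pi))) := by
        refine Integrable.mono' (g := fun _ => C) (integrable_const C)
          hfc.aestronglyMeasurable (Filter.Eventually.of_forall fun p => ?_)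
        show ‖φ (n p.1 * g * Y α p.2) * ((Real.sin p.2 : ℝ) : ℂ)‖ ≤ C
        rw [norm_mul, Complex.norm_real]
        calc ‖φ (n p.1 * g * Y α p.2)‖ * ‖Real.sin p.2‖ ≤ C * 1 :=
              mul_le_mul (hC _) (by rw [Real.norm_eq_abs]; exact Real.abs_sin_le_one _)
                (norm_nonneg _) hC0
          _ = C := mul_one C
      have h3 : ∀ x : Adl K, F x α = ∫ β in Set.Ioc (0 : ℝ) Real.pi, f x β := fun x =>
        intervalIntegral.integral_of_le Real.pi_pos.le
      simp only [h3]
      rw [integral_integral_swap hfint]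
      have h4 : ∀ β : ℝ, ∫ x in D, f x β ∂μ = 0 := by
        intro β
        have := hφ.cuspidal μ hμ D hD n hn (g * Y α β)
        simp only [hf]
        rw [integral_mul_const]
        simp only [mul_assoc]
        rw [this, zero_mul]
      simp only [h4, integral_zero]
    simp only [h2, integral_zero]

end Fermat.Agent.LT.T2.H566

end
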